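import Fermat.Agent.S56.P3.H666.IRR
import Fermat.Agent.S56.P3.Glue
import Fermat.Agent.S56.P3.H254.Arith
import Fermat.Agent.S56.H716.SBDefs

/-!
# S56 / TB layer 2, leaf INV0 (helper666)

Under the standing hypotheses `Hyp` of S56 (`M = ad⁰ρ̄`):

* `inv0_line` : no nonzero trace-zero `m` with `ρ̄σ m ρ̄σ⁻¹ ∈ k·m` for all `σ`
  (no Galois-stable line in `ad⁰ρ̄`, whatever the character);
* `adInv_top_eq_bot` : `H⁰(G_ℚ, ad⁰ρ̄) = 0`, in the form `adInv ρbar ⊤ = ⊥`;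
* `inv0_twisted` : `H⁰(G_ℚ, ad⁰ρ̄(1)) = 0`: no nonzero trace-zero `m` with
  `a • (ρ̄σ m ρ̄σ⁻¹) = m` whenever `IsCycExp p σ a`;
* `inv0_twisted_inv` : the same for the inverse twist `ρ̄σ m ρ̄σ⁻¹ = a • m`.
-/

set_option autoImplicit false

open Polynomial IsLocalRing

namespace Fermat.Agent.S56.H666

open Fermat.Agent.S56

variable {𝒪 : Type} [CommRing 𝒪] [IsDomain 𝒪] [IsDiscreteValuationRing 𝒪]
  {p : ℕ} {ρbar : ResidualGaloisRep (ResidueField 𝒪)} {S Smin : Finset ℕ}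

/-- No Galois-stable line in `ad⁰ρ̄`. -/
theorem inv0_line (H : Hyp 𝒪 p ρbar S Smin) (m : Module.End (ResidueField 𝒪) ρbar.V)
    (htr : LinearMap.trace (ResidueField 𝒪) ρbar.V m = 0)
    (hst : ∀ σ : GQ, ∃ c : ResidueField 𝒪, ρbar.ρ σ * m * ρbar.ρ σ⁻¹ = c • m) : m = 0 := by
  by_contra hm
  have : Fact p.Prime := ⟨H.hp⟩
  exact Fermat.Agent.S56.P3.H666.line_false ρbar.ρ p H.hp2 (Fermat.Agent.S56.P3.twHyp_of_hyp H)
    m hm htr hst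

/-- `H⁰(G_ℚ, ad⁰ρ̄) = 0`. -/
theorem adInv_top_eq_bot (H : Hyp 𝒪 p ρbar S Smin) :
    Fermat.Agent.S56.H716.adInv ρbar ⊤ = ⊥ := by
  rw [Submodule.eq_bot_iff]
  rintro m ⟨htr, hinv⟩
  refine inv0_line H m htr (fun σ => ⟨1, ?_⟩)
  rw [one_smul]
  exact hinv σ (Subgroup.mem_top σ)

/-- `H⁰(G_ℚ, ad⁰ρ̄(1)) = 0`. -/
theorem inv0_twisted (H : Hyp 𝒪 p ρbar S Smin) (m : Module.End (ResidueField 𝒪) ρbar.V)
    (htr : LinearMap.trace (ResidueField 𝒪) ρbar.V m = 0)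
    (hinv : ∀ (σ : GQ) (a : ℕ), IsCycExp p σ a →
      (a : ResidueField 𝒪) • (ρbar.ρ σ * m * ρbar.ρ σ⁻¹) = m) : m = 0 := by
  have : Fact p.Prime := ⟨H.hp⟩
  refine inv0_line H m htr (fun σ => ?_)
  obtain ⟨a, ha⟩ := Fermat.Agent.S56.P3.H254.cycExpExists p σ
  have h1 := hinv σ a ha
  by_cases ha0 : (a : ResidueField 𝒪) = 0
  · refine ⟨0, ?_⟩
    rw [ha0, zero_smul] at h1
    rw [← h1, mul_zero, zero_mul, smul_zero]
  · refine ⟨(a : ResidueField 𝒪)⁻¹, ?_⟩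
    rw [← h1, smul_smul, inv_mul_cancel₀ ha0, one_smul, h1]

/-- `H⁰(G_ℚ, ad⁰ρ̄(-1)) = 0`. -/
theorem inv0_twisted_inv (H : Hyp 𝒪 p ρbar S Smin) (m : Module.End (ResidueField 𝒪) ρbar.V)
    (htr : LinearMap.trace (ResidueField 𝒪) ρbar.V m = 0)
    (hinv : ∀ (σ : GQ) (a : ℕ), IsCycExp p σ a →
      ρbar.ρ σ * m * ρbar.ρ σ⁻¹ = (a : ResidueField 𝒪) • m) : m = 0 := by
  have : Fact p.Prime := ⟨H.hp⟩
  refine inv0_line H m htr (fun σ => ?_)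
  obtain ⟨a, ha⟩ := Fermat.Agent.S56.P3.H254.cycExpExists p σ
  exact ⟨a, hinv σ a ha⟩

end Fermat.Agent.S56.H666
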